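import Mathlib
import Fermat.Prelude.Def_CuspForm_HeckeAlgebra
import Fermat.Prelude.Def_CuspForm_IntegralStructure
import Fermat.Prelude.Def_FLTPrelim_Modularity
import Fermat.Prelude.Thm_CuspForm_intLattice_fg
import Fermat.Prelude.Thm_CuspForm_mem_intLattice_of_mem_heckeAlgebra
import Fermat.Prelude.Thm_ModularFormClass_qCoeff_heckeT
import Fermat.Prelude.Thm_ModularFormClass_qCoeff_heckeU
import Fermat.Prelude.Thm_CongruenceSubgroup_one_mem_strictPeriods_Gamma0
import Fermat.Agent.S49.Formal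

set_option autoImplicit false

namespace Fermat.Agent.S49

open CuspForm CongruenceSubgroup ModularFormClass

noncomputable section

/-- The space of weight two cusp forms. -/
abbrev V (N : ℕ) := CuspForm (Gamma0 N) 2

theorem hΓ (N : ℕ) : (1 : ℝ) ∈
    (Subgroup.map (Matrix.SpecialLinearGroup.mapGL ℝ) (Gamma0 N)).strictPeriods :=
  CongruenceSubgroup.one_mem_strictPeriods_Gamma0 N

theorem qCoeff_add' {N : ℕ} (f g : V N) (n : ℕ) :
    qCoeff ⇑(f + g) n = qCoeff ⇑f n + qCoeff ⇑g n := by
  simp only [qCoeff, FunLike.coe_add]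
  rw [ModularForm.qExpansion_add one_pos (hΓ N) f g, map_add]

theorem qCoeff_smul' {N : ℕ} (c : ℂ) (f : V N) (n : ℕ) :
    qCoeff ⇑(c • f) n = c * qCoeff ⇑f n := by
  have h1 : ⇑(c • f) = c • ⇑f := by
    ext z
    simp
  simp only [qCoeff, h1]
  rw [ModularForm.qExpansion_smul one_pos (hΓ N) c f]
  simp

/-- the `n`-th `q`-coefficient as a linear functional. -/
def qc (N : ℕ) (n : ℕ) : V N →ₗ[ℂ] ℂ where
  toFun f := qCoeff ⇑f n
  map_add' f g := qCoeff_add' f g n
  map_smul' c f := by simpa using qCoeff_smul' c f n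

@[simp] theorem qc_apply {N : ℕ} (n : ℕ) (f : V N) : qc N n f = qCoeff ⇑f n := rfl

theorem qc_zero {N : ℕ} (f : V N) : qc N 0 f = 0 :=
  CuspFormClass.qExpansion_coeff_zero f one_pos (hΓ N)

theorem eq_zero_of_qc {N : ℕ} [NeZero N] (f : V N) (h : ∀ n, qc N n f = 0) : f = 0 := by
  apply P2MW.S_CuspForm_intLattice_fg.W3WsD.trunc_injective N 2
  rw [map_zero]
  funext i
  exact h i

theorem qc_heckeT {N : ℕ} {p : ℕ} (hp : p.Prime) (hpN : ¬ p ∣ N) (f : V N) (n : ℕ) :
    qc N n (heckeTLin 2 hp hpN f) =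
      qc N (n * p) f + if p ∣ n then (p : ℂ) * qc N (n / p) f else 0 := by
  simp only [qc_apply, coe_heckeTLin_apply]
  rw [ModularFormClass.qCoeff_heckeT f (hΓ N) hp.ne_zero n, ModularForm.coeffHeckeT_apply]
  norm_num

theorem qc_heckeU {N : ℕ} [NeZero N] {p : ℕ} (hp : p.Prime) (hpN : p ∣ N) (f : V N) (n : ℕ) :
    qc N n (heckeULin 2 hpN f) = qc N (n * p) f := by
  simp only [qc_apply, coe_heckeULin_apply]
  rw [ModularFormClass.qCoeff_heckeU f (hΓ N) hp.ne_zero n, ModularForm.coeffHeckeU_apply]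

instance finiteDimensional_V (N : ℕ) [NeZero N] : FiniteDimensional ℂ (V N) := by
  let B := P2MW.S_CuspForm_intLattice_fg.W3WsD.sturmB N 2
  let tr : V N →ₗ[ℂ] (Fin (B + 1) → ℂ) := LinearMap.pi fun i => qc N i
  have hinj : Function.Injective tr := by
    refine (injective_iff_map_eq_zero _).mpr fun f hf => ?_
    apply P2MW.S_CuspForm_intLattice_fg.W3WsD.trunc_injective N 2
    rw [map_zero]
    funext i
    exact congrFun hf i
  exact FiniteDimensional.of_injective tr hinj

/-- The integral Hecke algebra. -/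
abbrev TT (N : ℕ) [NeZero N] := heckeAlgebra N 2 ∅

theorem exists_hecke_qc (N : ℕ) [NeZero N] (n : ℕ) (hn : 0 < n) :
    ∃ t ∈ heckeAlgebra N 2 ∅, ∀ f : V N, qc N n f = qc N 1 (t f) := by
  induction n using Nat.strong_induction_on with
  | _ n ih =>
    rcases Nat.lt_or_ge 1 n with h1 | h1
    · obtain ⟨m, hm⟩ := Nat.minFac_dvd n
      set p := n.minFac with hp_def
      have hp : p.Prime := Nat.minFac_prime h1.ne'
      have hm0 : 0 < m := by
        rcases Nat.eq_zero_or_pos m with h | h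
        · subst h; omega
        · exact h
      have hmn : m < n := by
        rw [hm]; exact (Nat.lt_mul_iff_one_lt_left hm0).mpr hp.one_lt
      obtain ⟨tm, htm, hm'⟩ := ih m hmn hm0
      by_cases hpN : p ∣ N
      · refine ⟨tm * heckeULin 2 hpN,
          mul_mem htm (heckeULin_mem_heckeAlgebra hp hpN (Set.notMem_empty _)), fun f => ?_⟩
        rw [Module.End.mul_apply, ← hm', qc_heckeU hp hpN, hm, mul_comm]
      · by_cases hpm : p ∣ m
        · have hmp0 : 0 < m / p := Nat.div_pos (Nat.le_of_dvd hm0 hpm) hp.pos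
          have hmpn : m / p < n := lt_of_le_of_lt (Nat.div_le_self m p) hmn
          obtain ⟨tq, htq, hq'⟩ := ih (m / p) hmpn hmp0
          refine ⟨tm * heckeTLin 2 hp hpN - (p : ℤ) • tq,
            sub_mem (mul_mem htm (heckeTLin_mem_heckeAlgebra hp hpN (Set.notMem_empty _)))
              (Subalgebra.smul_mem _ htq _), fun f => ?_⟩
          rw [LinearMap.sub_apply, Module.End.mul_apply, map_sub, ← hm', qc_heckeT hp hpN,
            if_pos hpm, LinearMap.smul_apply, map_zsmul, ← hq', hm, mul_comm]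
          simp
        · refine ⟨tm * heckeTLin 2 hp hpN,
            mul_mem htm (heckeTLin_mem_heckeAlgebra hp hpN (Set.notMem_empty _)), fun f => ?_⟩
          rw [Module.End.mul_apply, ← hm', qc_heckeT hp hpN, if_neg hpm, hm, mul_comm, add_zero]
    · have : n = 1 := by omega
      subst this
      exact ⟨1, one_mem _, fun f => rfl⟩

end

end Fermat.Agent.S49
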