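import Fermat.Agent.S49.Max

set_option autoImplicit false

namespace Fermat.Agent.S49

open CuspForm CongruenceSubgroup ModularFormClass EisensteinWeightOne

noncomputable section

variable {N : ℕ} [NeZero N]

/-- Restriction of Hecke operators to the integral lattice. -/
def restrictL (N : ℕ) [NeZero N] : TT N →+* Module.End ℤ (intLattice N 2) where
  toFun t := ((t : Module.End ℂ (V N)).restrictScalars ℤ).restrict
    (fun _ hv => mem_intLattice_of_mem_heckeAlgebra (by norm_num) t.2 hv)
  map_one' := by ext; rfl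
  map_mul' := by intros; ext; rfl
  map_zero' := by ext; rfl
  map_add' := by intros; ext; rfl

theorem qIntegralSet_subset (N : ℕ) : qIntegralSet N ⊆ (intLattice N 2 : Set (V N)) := by
  intro f hf
  rw [SetLike.mem_coe, mem_intLattice_iff']
  intro n
  obtain ⟨m, hm⟩ := Subring.mem_bot.mp (hf n)
  exact ⟨m, hm.symm⟩

theorem restrictL_injective (h : HasIntegralBasis N) : Function.Injective (restrictL N) := by
  refine (injective_iff_map_eq_zero _).mpr fun t ht => ?_
  apply Subtype.ext
  apply LinearMap.ext_on h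
  intro v hv
  have := congrArg (fun φ : Module.End ℤ (intLattice N 2) =>
    ((φ ⟨v, qIntegralSet_subset N hv⟩ : intLattice N 2) : V N)) ht
  exact this

theorem isIntegral_TT (h : HasIntegralBasis N) (t : TT N) : IsIntegral ℤ t := by
  have : Module.Finite ℤ (intLattice N 2) := Module.Finite.iff_fg.mpr (intLattice_fg N 2)
  have h1 : IsIntegral ℤ ((restrictL N).toIntAlgHom t) :=
    Algebra.IsIntegral.isIntegral (R := ℤ) _
  exact (isIntegral_algHom_iff (restrictL N).toIntAlgHom (restrictL_injective h)).mp h1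

/-- generic inclusion. -/
def inclGen {E : Type*} [Ring E] [Algebra ℂ E] (S : Subalgebra ℤ E) (A : Subalgebra ℂ E)
    (h : ∀ x ∈ S, x ∈ A) : S →+* A where
  toFun t := ⟨t.1, h t.1 t.2⟩
  map_one' := rfl
  map_mul' _ _ := rfl
  map_zero' := rfl
  map_add' _ _ := rfl

theorem inclGen_coe {E : Type*} [Ring E] [Algebra ℂ E] (S : Subalgebra ℤ E) (A : Subalgebra ℂ E)
    (h : ∀ x ∈ S, x ∈ A) (t : S) : ((inclGen S A h t : A) : E) = (t : E) := rfl

theorem inclGen_injective {E : Type*} [Ring E] [Algebra ℂ E] (S : Subalgebra ℤ E)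
    (A : Subalgebra ℂ E) (h : ∀ x ∈ S, x ∈ A) : Function.Injective (inclGen S A h) := by
  intro s t hst
  apply Subtype.ext
  rw [← inclGen_coe S A h s, ← inclGen_coe S A h t, hst]

/-- inclusion of the integral Hecke algebra in the complex one. -/
def incl (N : ℕ) [NeZero N] : TT N →+* AA N :=
  inclGen (heckeAlgebra N 2 ∅) (AA N) (fun _ hx => TT_le_AA N hx)

theorem incl_coe (N : ℕ) [NeZero N] (t : TT N) :
    ((incl N t : AA N) : Module.End ℂ (V N)) = (t : Module.End ℂ (V N)) :=
  inclGen_coe (heckeAlgebra N 2 ∅) (AA N) (fun _ hx => TT_le_AA N hx) t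

theorem incl_injective (N : ℕ) [NeZero N] : Function.Injective (incl N) :=
  inclGen_injective (heckeAlgebra N 2 ∅) (AA N) (fun _ hx => TT_le_AA N hx)

instance finiteDimensional_AA (N : ℕ) [NeZero N] : FiniteDimensional ℂ (AA N) :=
  inferInstance

end

end Fermat.Agent.S49
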