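import Mathlib
import Fermat.Prelude.Def_FormalHecke_Eigensystem

set_option autoImplicit false

namespace Fermat.Agent.S49

open FormalHecke

variable {R : Type*} [CommRing R]

theorem eig_prime_pow {e a : ℕ → R} (h : IsEigensystem e a) (ℓ r : ℕ) (hℓ : ℓ.Prime) :
    a (ℓ ^ (r + 2)) = a ℓ * a (ℓ ^ (r + 1)) - e ℓ * a (ℓ ^ r) := by
  have h1 := h.2 ℓ hℓ (ℓ ^ (r + 1))
  have hd : ℓ ∣ ℓ ^ (r + 1) := dvd_pow_self ℓ (Nat.succ_ne_zero r)
  rw [if_pos hd] at h1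
  have h2 : ℓ ^ (r + 1) / ℓ = ℓ ^ r := by
    rw [pow_succ]; exact Nat.mul_div_cancel _ hℓ.pos
  have h3 : ℓ * ℓ ^ (r + 1) = ℓ ^ (r + 2) := by ring
  rw [h2, h3] at h1
  linear_combination h1

theorem eig_prime_pow_mul {e a : ℕ → R} (h : IsEigensystem e a) (ℓ : ℕ) (hℓ : ℓ.Prime)
    (n : ℕ) (hn : ¬ ℓ ∣ n) : ∀ k : ℕ, a (ℓ ^ k * n) = a (ℓ ^ k) * a n ∧
      a (ℓ ^ (k + 1) * n) = a (ℓ ^ (k + 1)) * a n := by
  intro k
  induction k with
  | zero =>
    refine ⟨by simp [h.1], ?_⟩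
    have h1 := h.2 ℓ hℓ n
    rw [if_neg hn] at h1
    simpa using h1
  | succ k ih =>
    refine ⟨ih.2, ?_⟩
    have h1 := h.2 ℓ hℓ (ℓ ^ (k + 1) * n)
    have hd : ℓ ∣ ℓ ^ (k + 1) * n := Dvd.dvd.mul_right (dvd_pow_self ℓ (Nat.succ_ne_zero k)) n
    rw [if_pos hd] at h1
    have h2 : ℓ ^ (k + 1) * n / ℓ = ℓ ^ k * n := by
      rw [pow_succ, mul_assoc, mul_comm ℓ n, ← mul_assoc]; exact Nat.mul_div_cancel _ hℓ.pos
    have h3 : ℓ * (ℓ ^ (k + 1) * n) = ℓ ^ (k + 1 + 1) * n := by ring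
    rw [h2, h3, ih.1, ih.2] at h1
    have h4 := eig_prime_pow h ℓ k hℓ
    rw [h4]
    linear_combination h1

theorem eig_mul_of_coprime {e a : ℕ → R} (h : IsEigensystem e a) :
    ∀ m n : ℕ, m.Coprime n → a (m * n) = a m * a n := by
  intro m
  induction m using Nat.recOnPosPrimePosCoprime with
  | prime_pow p k hp hk =>
    intro n hn
    have hpn : ¬ p ∣ n := by
      intro hd
      have h1 : p ∣ Nat.gcd (p ^ k) n := Nat.dvd_gcd (dvd_pow_self p hk.ne') hd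
      rw [hn] at h1
      exact hp.one_lt.ne' (Nat.dvd_one.mp h1)
    exact (eig_prime_pow_mul h p hp n hpn k).1
  | zero =>
    intro n hn
    have : n = 1 := by simpa using hn
    subst this
    simp [h.1]
  | one =>
    intro n _
    simp [h.1]
  | coprime x y _ _ hxy hx hy =>
    intro n hn
    have hxn : x.Coprime n := Nat.Coprime.coprime_mul_right hn
    have hyn : y.Coprime n := Nat.Coprime.coprime_mul_left hn
    have hx' : x.Coprime (y * n) := Nat.Coprime.mul_right hxy hxn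
    rw [mul_assoc, hx _ hx', hy _ hyn, hx _ hxy, mul_assoc]

theorem isRecursive_of_isEigensystem {e a : ℕ → R} (h : IsEigensystem e a) :
    IsRecursive e a :=
  ⟨h.1, eig_mul_of_coprime h, fun ℓ r hℓ => eig_prime_pow h ℓ r hℓ⟩

end Fermat.Agent.S49
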