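import Fermat.Agent.S49.Lift
import Fermat.Prelude.Def_CuspForm_IntegralLattice
import Fermat.Prelude.Def_ModularForm_EisensteinChiNegThree

set_option autoImplicit false

namespace Fermat.Agent.S49

open CuspForm CongruenceSubgroup ModularFormClass EisensteinWeightOne

noncomputable section

theorem mem_intLattice_iff' {N : ℕ} (f : V N) :
    f ∈ intLattice N 2 ↔ ∀ n : ℕ, ∃ m : ℤ, qc N n f = (m : ℂ) :=
  P2MW.S_CuspForm_intLattice_fg.W3WsD.mem_intLattice_iff f

/-- The annihilator of `f` modulo three. -/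
def mIdeal (N : ℕ) [NeZero N] (f : V N) : Ideal (TT N) where
  carrier := {t | ∀ n, ∃ m : ℤ, qc N n ((t : Module.End ℂ (V N)) f) = 3 * (m : ℂ)}
  add_mem' := by
    intro s t hs ht n
    obtain ⟨x, hx⟩ := hs n
    obtain ⟨y, hy⟩ := ht n
    refine ⟨x + y, ?_⟩
    rw [Subalgebra.coe_add, LinearMap.add_apply, map_add, hx, hy]
    push_cast; ring
  zero_mem' := by
    intro n
    refine ⟨0, ?_⟩
    rw [ZeroMemClass.coe_zero, LinearMap.zero_apply, map_zero]
    simp
  smul_mem' := by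
    intro s t ht n
    have hh : ((1 / 3 : ℂ) • ((t : Module.End ℂ (V N)) f)) ∈ intLattice N 2 := by
      rw [mem_intLattice_iff']
      intro k
      obtain ⟨m, hm⟩ := ht k
      exact ⟨m, by rw [map_smul, hm, smul_eq_mul]; ring⟩
    have hs := mem_intLattice_of_mem_heckeAlgebra (by norm_num) s.2 hh
    rw [mem_intLattice_iff'] at hs
    obtain ⟨m, hm⟩ := hs n
    refine ⟨m, ?_⟩
    rw [smul_eq_mul, Subalgebra.coe_mul, Module.End.mul_apply]
    rw [map_smul, map_smul, smul_eq_mul] at hm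
    linear_combination 3 * hm

theorem mem_mIdeal {N : ℕ} [NeZero N] (f : V N) (t : TT N) :
    t ∈ mIdeal N f ↔ ∀ n, ∃ m : ℤ, qc N n ((t : Module.End ℂ (V N)) f) = 3 * (m : ℂ) := Iff.rfl

theorem three_dvd_sub_chi (ℓ : ℕ) : (3 : ℤ) ∣ (ℓ : ℤ) - chiNegThree ℓ := by
  unfold chiNegThree
  split_ifs <;> omega

theorem coeff_bridgeProduct (a : ℕ → ℤ) (n : ℕ) :
    (3 : ℤ) ∣ (bridgeProduct a).coeff n - a n := by
  have h1 : e1Chi3In ℤ = 1 + PowerSeries.C (3 : ℤ) *
      PowerSeries.mk (fun n => if n = 0 then 0 else 2 * sigmaChi n) := by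
    ext k
    simp only [e1Chi3In, e1Chi3, PowerSeries.coeff_map, PowerSeries.coeff_mk, map_add,
      PowerSeries.coeff_one, PowerSeries.coeff_C_mul, Int.coe_castRingHom, Int.cast_id]
    split_ifs <;> ring
  rw [bridgeProduct, h1, mul_add, mul_one, map_add, PowerSeries.coeff_mk, mul_left_comm,
    PowerSeries.coeff_C_mul]
  simp

end

end Fermat.Agent.S49
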