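import Fermat.Agent.S49.Pairing

set_option autoImplicit false

namespace Fermat.Agent.S49

open CuspForm CongruenceSubgroup ModularFormClass

noncomputable section

/-- A finite-dimensional commutative `ℂ`-algebra containing `T` has a character whose restriction
to `T` has kernel inside a given prime. -/
theorem exists_character {T A : Type*} [CommRing T] [CommRing A] [Algebra ℂ A]
    [FiniteDimensional ℂ A] (ι : T →+* A) (hι : Function.Injective ι) (𝔪 : Ideal T)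
    [h𝔪 : 𝔪.IsPrime] :
    ∃ μ : A →ₐ[ℂ] ℂ, ∀ t : T, μ (ι t) = 0 → t ∈ 𝔪 := by
  classical
  let S : Submonoid A := Submonoid.map ι 𝔪.primeCompl
  have hdisj : Disjoint ((⊥ : Ideal A) : Set A) (S : Set A) := by
    rw [Set.disjoint_left]
    rintro x hx ⟨t, ht, rfl⟩
    have h0 : ι t = 0 := by simpa using hx
    have : t = 0 := hι (by rw [h0, map_zero])
    exact ht (this ▸ 𝔪.zero_mem)
  obtain ⟨𝔮, h𝔮, -, hd⟩ := Ideal.exists_le_prime_disjoint (⊥ : Ideal A) S hdisj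
  haveI : IsDomain (A ⧸ 𝔮) := Ideal.Quotient.isDomain 𝔮
  haveI : Module.Finite ℂ (A ⧸ 𝔮) := Module.Finite.quotient ℂ 𝔮
  haveI : Algebra.IsIntegral ℂ (A ⧸ 𝔮) := Algebra.IsIntegral.of_finite ℂ (A ⧸ 𝔮)
  have hbij : Function.Bijective (algebraMap ℂ (A ⧸ 𝔮)) :=
    IsAlgClosed.algebraMap_bijective_of_isIntegral
  let e : ℂ ≃ₐ[ℂ] (A ⧸ 𝔮) := AlgEquiv.ofBijective (Algebra.ofId ℂ (A ⧸ 𝔮)) hbij
  refine ⟨(e.symm : (A ⧸ 𝔮) →ₐ[ℂ] ℂ).comp (Ideal.Quotient.mkₐ ℂ 𝔮), fun t ht => ?_⟩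
  by_contra hcon
  have h1 : e.symm (Ideal.Quotient.mk 𝔮 (ι t)) = 0 := ht
  have h2 : Ideal.Quotient.mk 𝔮 (ι t) = 0 := by
    have := congrArg e h1
    simpa using this
  have h3 : ι t ∈ 𝔮 := Ideal.Quotient.eq_zero_iff_mem.mp h2
  exact Set.disjoint_left.mp hd h3 ⟨t, hcon, rfl⟩

/-- Going up to the ring of all algebraic integers. -/
theorem exists_maximal_over {T : Type*} [CommRing T] (lam : T →+* ℂ)
    (hint : ∀ t, IsIntegral ℤ (lam t)) (𝔪 : Ideal T) [h𝔪 : 𝔪.IsMaximal]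
    (hker : ∀ t, lam t = 0 → t ∈ 𝔪) :
    ∃ 𝔪' : Ideal (integralClosure ℤ ℂ), 𝔪'.IsMaximal ∧
      ∀ t ∈ 𝔪, ∀ c : integralClosure ℤ ℂ, (c : ℂ) = lam t → c ∈ 𝔪' := by
  let lam' : T →+* integralClosure ℤ ℂ := lam.codRestrict (integralClosure ℤ ℂ) hint
  letI : Algebra T (integralClosure ℤ ℂ) := lam'.toAlgebra
  haveI : Algebra.IsIntegral T (integralClosure ℤ ℂ) :=
    ⟨fun x => (Algebra.IsIntegral.isIntegral (R := ℤ) x).tower_top⟩
  have hk : RingHom.ker (algebraMap T (integralClosure ℤ ℂ)) ≤ 𝔪 := by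
    intro t ht
    apply hker
    have : lam' t = 0 := ht
    exact congrArg Subtype.val this
  obtain ⟨Q, hQ, hQc⟩ := Ideal.exists_ideal_over_maximal_of_isIntegral 𝔪 hk
  refine ⟨Q, hQ, fun t ht c hc => ?_⟩
  have h1 : t ∈ Ideal.comap (algebraMap T (integralClosure ℤ ℂ)) Q := hQc ▸ ht
  have h2 : lam' t ∈ Q := h1
  have h3 : c = lam' t := Subtype.ext hc
  rw [h3]; exact h2

end

end Fermat.Agent.S49
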