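import Fermat.Agent.S49.Ideal

set_option autoImplicit false

namespace Fermat.Agent.S49

open CuspForm CongruenceSubgroup ModularFormClass EisensteinWeightOne

noncomputable section

variable {N : ℕ} [NeZero N] {f : V N} {af a : ℕ → ℤ}

theorem coe_sub_intCast_apply (t : TT N) (c : ℤ) (g : V N) :
    ((t - (c : TT N) : TT N) : Module.End ℂ (V N)) g =
      (t : Module.End ℂ (V N)) g - (c : ℂ) • g := by
  rw [Subalgebra.coe_sub, LinearMap.sub_apply, SubringClass.coe_intCast, Module.End.intCast_apply,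
    Int.cast_smul_eq_zsmul]

theorem T_sub_mem (haf : ∀ n, (af n : ℂ) = qc N n f) (hcong : ∀ n, (3 : ℤ) ∣ af n - a n)
    (heig : FormalHecke.IsEigensystem
      (fun ℓ => if ℓ ∣ N then 0 else ((chiNegThree ℓ : ℤ) : ℤ)) a)
    {ℓ : ℕ} (hℓ : ℓ.Prime) (hℓN : ¬ ℓ ∣ N) :
    (heckeAlgebra.T hℓ hℓN (Set.notMem_empty _) - (a ℓ : TT N) : TT N) ∈ mIdeal N f := by
  rw [mem_mIdeal]
  intro n
  rw [coe_sub_intCast_apply, heckeAlgebra.coe_T, map_sub, map_smul, qc_heckeT hℓ hℓN,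
    ← haf, ← haf, ← haf]
  have h1 := heig.2 ℓ hℓ n
  simp only [if_neg hℓN] at h1
  have key : (3 : ℤ) ∣ af (n * ℓ) + (if ℓ ∣ n then (ℓ : ℤ) * af (n / ℓ) else 0) - a ℓ * af n := by
    obtain ⟨x, hx⟩ := hcong (n * ℓ)
    obtain ⟨y, hy⟩ := hcong (n / ℓ)
    obtain ⟨z, hz⟩ := hcong n
    obtain ⟨w, hw⟩ := three_dvd_sub_chi ℓ
    rw [mul_comm ℓ n] at h1
    by_cases hd : ℓ ∣ n
    · rw [if_pos hd] at h1 ⊢
      refine ⟨x + ℓ * y + w * a (n / ℓ) - a ℓ * z, ?_⟩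
      linear_combination hx + (ℓ : ℤ) * hy + a (n / ℓ) * hw - a ℓ * hz + h1
    · rw [if_neg hd] at h1 ⊢
      refine ⟨x - a ℓ * z, ?_⟩
      linear_combination hx - a ℓ * hz + h1
  obtain ⟨m, hm⟩ := key
  refine ⟨m, ?_⟩
  have := congrArg (fun k : ℤ => (k : ℂ)) hm
  push_cast at this
  rw [← this, smul_eq_mul]

theorem U_sub_mem (haf : ∀ n, (af n : ℂ) = qc N n f) (hcong : ∀ n, (3 : ℤ) ∣ af n - a n)
    (heig : FormalHecke.IsEigensystem
      (fun ℓ => if ℓ ∣ N then 0 else ((chiNegThree ℓ : ℤ) : ℤ)) a)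
    {ℓ : ℕ} (hℓ : ℓ.Prime) (hℓN : ℓ ∣ N) :
    (heckeAlgebra.U hℓ hℓN (Set.notMem_empty _) - (a ℓ : TT N) : TT N) ∈ mIdeal N f := by
  rw [mem_mIdeal]
  intro n
  rw [coe_sub_intCast_apply, heckeAlgebra.coe_U, map_sub, map_smul, qc_heckeU hℓ hℓN,
    ← haf, ← haf]
  have h1 := heig.2 ℓ hℓ n
  simp only [if_pos hℓN] at h1
  have key : (3 : ℤ) ∣ af (n * ℓ) - a ℓ * af n := by
    obtain ⟨x, hx⟩ := hcong (n * ℓ)
    obtain ⟨z, hz⟩ := hcong n
    rw [mul_comm ℓ n] at h1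
    refine ⟨x - a ℓ * z, ?_⟩
    linear_combination hx - a ℓ * hz + h1
  obtain ⟨m, hm⟩ := key
  refine ⟨m, ?_⟩
  have := congrArg (fun k : ℤ => (k : ℂ)) hm
  push_cast at this
  rw [← this, smul_eq_mul]

theorem exists_int_sub_mem (haf : ∀ n, (af n : ℂ) = qc N n f)
    (hcong : ∀ n, (3 : ℤ) ∣ af n - a n)
    (heig : FormalHecke.IsEigensystem
      (fun ℓ => if ℓ ∣ N then 0 else ((chiNegThree ℓ : ℤ) : ℤ)) a) (t : TT N) :
    ∃ c : ℤ, t - (c : TT N) ∈ mIdeal N f := by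
  obtain ⟨t, ht⟩ := t
  induction ht using Algebra.adjoin_induction with
  | mem x hx =>
    rcases hx with ⟨ℓ, hℓ, hℓN, -, rfl⟩ | ⟨q, hqN, hq, -, rfl⟩
    · exact ⟨a ℓ, T_sub_mem haf hcong heig hℓ hℓN⟩
    · exact ⟨a q, U_sub_mem haf hcong heig hq hqN⟩
  | algebraMap r =>
    refine ⟨r, ?_⟩
    have : (⟨algebraMap ℤ (Module.End ℂ (V N)) r, Subalgebra.algebraMap_mem _ r⟩ : TT N)
        = (r : TT N) := by
      apply Subtype.ext
      simp
    rw [this, sub_self]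
    exact zero_mem _
  | add x y hx hy ihx ihy =>
    obtain ⟨c, hc⟩ := ihx
    obtain ⟨d, hd⟩ := ihy
    refine ⟨c + d, ?_⟩
    have : (⟨x + y, add_mem hx hy⟩ : TT N) - ((c + d : ℤ) : TT N)
        = ((⟨x, hx⟩ : TT N) - (c : TT N)) + ((⟨y, hy⟩ : TT N) - (d : TT N)) := by
      have h0 : (⟨x + y, add_mem hx hy⟩ : TT N) = (⟨x, hx⟩ : TT N) + ⟨y, hy⟩ := rfl
      rw [h0]; push_cast; ring
    rw [this]
    exact add_mem hc hd
  | mul x y hx hy ihx ihy =>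
    obtain ⟨c, hc⟩ := ihx
    obtain ⟨d, hd⟩ := ihy
    refine ⟨c * d, ?_⟩
    have : (⟨x * y, mul_mem hx hy⟩ : TT N) - ((c * d : ℤ) : TT N)
        = (⟨y, hy⟩ : TT N) * ((⟨x, hx⟩ : TT N) - (c : TT N))
          + (c : TT N) * ((⟨y, hy⟩ : TT N) - (d : TT N)) := by
      have h0 : (⟨x * y, mul_mem hx hy⟩ : TT N) = (⟨x, hx⟩ : TT N) * ⟨y, hy⟩ := rfl
      rw [h0]; push_cast; ring
    rw [this]
    exact add_mem (Ideal.mul_mem_left _ _ hc) (Ideal.mul_mem_left _ _ hd)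

theorem intCast_mem_mIdeal_iff (haf : ∀ n, (af n : ℂ) = qc N n f)
    (h1 : (3 : ℤ) ∣ af 1 - 1) (c : ℤ) :
    (c : TT N) ∈ mIdeal N f ↔ (3 : ℤ) ∣ c := by
  rw [mem_mIdeal]
  constructor
  · intro h
    obtain ⟨m, hm⟩ := h 1
    rw [SubringClass.coe_intCast, Module.End.intCast_apply, map_zsmul, ← haf] at hm
    have hm' : c * af 1 = 3 * m := by
      have : ((c * af 1 : ℤ) : ℂ) = ((3 * m : ℤ) : ℂ) := by
        push_cast; rw [← hm]; simp
      exact_mod_cast this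
    obtain ⟨k, hk⟩ := h1
    refine ⟨m - c * k, ?_⟩
    linear_combination hm' - c * hk
  · rintro ⟨k, rfl⟩ n
    refine ⟨k * af n, ?_⟩
    rw [SubringClass.coe_intCast, Module.End.intCast_apply, map_zsmul, ← haf]
    simp; ring

theorem mIdeal_isMaximal (haf : ∀ n, (af n : ℂ) = qc N n f)
    (hcong : ∀ n, (3 : ℤ) ∣ af n - a n)
    (heig : FormalHecke.IsEigensystem
      (fun ℓ => if ℓ ∣ N then 0 else ((chiNegThree ℓ : ℤ) : ℤ)) a) :
    (mIdeal N f).IsMaximal := by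
  have h1 : (3 : ℤ) ∣ af 1 - 1 := by
    have := hcong 1
    rwa [heig.1] at this
  rw [Ideal.isMaximal_iff]
  constructor
  · intro h
    have : ((1 : ℤ) : TT N) ∈ mIdeal N f := by simpa using h
    rw [intCast_mem_mIdeal_iff haf h1] at this
    omega
  · intro J x hJ hx hxJ
    obtain ⟨c, hc⟩ := exists_int_sub_mem haf hcong heig x
    have hc3 : ¬ (3 : ℤ) ∣ c := by
      intro h3
      have : (c : TT N) ∈ mIdeal N f := (intCast_mem_mIdeal_iff haf h1 c).mpr h3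
      apply hx
      have h2 := add_mem hc this
      simpa using h2
    have hcop : IsCoprime c 3 := by
      have hp : Prime (3 : ℤ) := by norm_num
      exact ((Prime.coprime_iff_not_dvd hp).mpr hc3).symm
    obtain ⟨u, v, huv⟩ := hcop
    have h3 : ((3 : ℤ) : TT N) ∈ J := hJ ((intCast_mem_mIdeal_iff haf h1 3).mpr dvd_rfl)
    have hcJ : (c : TT N) ∈ J := by
      have h2 := sub_mem hxJ (hJ hc)
      simpa using h2
    have : (1 : TT N) = (u : TT N) * (c : TT N) + (v : TT N) * ((3 : ℤ) : TT N) := by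
      have := congrArg (fun k : ℤ => (k : TT N)) huv
      push_cast at this
      push_cast
      exact this.symm
    rw [this]
    exact add_mem (Ideal.mul_mem_left _ _ hcJ) (Ideal.mul_mem_left _ _ h3)

end

end Fermat.Agent.S49
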