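import Fermat.Agent.S49.Hecke

set_option autoImplicit false

namespace Fermat.Agent.S49

open CuspForm CongruenceSubgroup ModularFormClass

noncomputable section

/-- The complex Hecke algebra. -/
def AA (N : ℕ) [NeZero N] : Subalgebra ℂ (Module.End ℂ (V N)) :=
  Algebra.adjoin ℂ (heckeGenerators N 2 ∅)

instance AA.instIsMulCommutative (N : ℕ) [NeZero N] : IsMulCommutative (AA N) :=
  Algebra.isMulCommutative_adjoin ℂ fun _ hT _ hT' => commute_of_mem_heckeGenerators hT hT'

open scoped IsMulCommutative in
instance AA.instCommRing (N : ℕ) [NeZero N] : CommRing (AA N) := inferInstance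

theorem TT_le_AA (N : ℕ) [NeZero N] {t : Module.End ℂ (V N)} (ht : t ∈ heckeAlgebra N 2 ∅) :
    t ∈ AA N := by
  induction ht using Algebra.adjoin_induction with
  | mem x hx => exact Algebra.subset_adjoin hx
  | algebraMap r =>
    rw [eq_intCast]
    exact intCast_mem (AA N) r
  | add x y _ _ hx hy => exact add_mem hx hy
  | mul x y _ _ hx hy => exact mul_mem hx hy

/-- The pairing `(f, t) ↦ a₁(t f)`. -/
def pairing (N : ℕ) [NeZero N] : V N →ₗ[ℂ] AA N →ₗ[ℂ] ℂ :=
  LinearMap.mk₂ ℂ (fun f (t : AA N) => qc N 1 ((t : Module.End ℂ (V N)) f))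
    (fun f g t => by simp only [map_add])
    (fun c f t => by simp only [map_smul])
    (fun f t s => by simp only [Subalgebra.coe_add, LinearMap.add_apply, map_add])
    (fun c f t => by simp only [Subalgebra.coe_smul, LinearMap.smul_apply, map_smul])

@[simp] theorem pairing_apply {N : ℕ} [NeZero N] (f : V N) (t : AA N) :
    pairing N f t = qc N 1 ((t : Module.End ℂ (V N)) f) := rfl

theorem pairing_injective (N : ℕ) [NeZero N] : Function.Injective (pairing N) := by
  refine (injective_iff_map_eq_zero _).mpr fun f hf => ?_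
  apply eq_zero_of_qc
  intro n
  rcases Nat.eq_zero_or_pos n with rfl | hn
  · exact qc_zero f
  · obtain ⟨t, ht, h⟩ := exists_hecke_qc N n hn
    rw [h]
    exact congrArg (fun φ => φ ⟨t, TT_le_AA N ht⟩) hf

theorem pairing_flip_injective (N : ℕ) [NeZero N] : Function.Injective (pairing N).flip := by
  refine (injective_iff_map_eq_zero _).mpr fun s hs => ?_
  apply Subtype.ext
  apply LinearMap.ext
  intro f
  apply eq_zero_of_qc
  intro n
  rcases Nat.eq_zero_or_pos n with rfl | hn
  · exact qc_zero _
  · obtain ⟨t, ht, h⟩ := exists_hecke_qc N n hn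
    rw [h]
    have hcomm : (⟨t, TT_le_AA N ht⟩ : AA N) * s = s * ⟨t, TT_le_AA N ht⟩ := mul_comm _ _
    have hcomm' : t * (s : Module.End ℂ (V N)) = (s : Module.End ℂ (V N)) * t :=
      congrArg Subtype.val hcomm
    have h2 : t ((s : Module.End ℂ (V N)) f) = (s : Module.End ℂ (V N)) (t f) := by
      rw [← Module.End.mul_apply, hcomm', Module.End.mul_apply]
    rw [h2]
    exact congrArg (fun φ => φ (t f)) hs

theorem pairing_surjective (N : ℕ) [NeZero N] : Function.Surjective (pairing N) :=
  (LinearMap.IsPerfPair.of_injective (pairing_injective N)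
    (pairing_flip_injective N)).bijective_left.2

/-- Every character of the complex Hecke algebra comes from a normalised eigenvector. -/
theorem exists_eigenvector (N : ℕ) [NeZero N] (μ : AA N →ₐ[ℂ] ℂ) :
    ∃ g : V N, qc N 1 g = 1 ∧ ∀ s : AA N, (s : Module.End ℂ (V N)) g = μ s • g := by
  obtain ⟨g, hg⟩ := pairing_surjective N μ.toLinearMap
  have hg' : ∀ t : AA N, qc N 1 ((t : Module.End ℂ (V N)) g) = μ t := fun t =>
    congrArg (fun φ => φ t) hg
  refine ⟨g, by simpa using hg' 1, fun s => ?_⟩
  apply pairing_injective N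
  apply LinearMap.ext
  intro t
  rw [pairing_apply, pairing_apply, map_smul, map_smul, hg' t, ← Module.End.mul_apply]
  have := hg' (t * s)
  rw [Subalgebra.coe_mul] at this
  rw [this, map_mul, smul_eq_mul, mul_comm]

end

end Fermat.Agent.S49
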